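/-
A3 / WP-C (helper435): Galois descent lemmas for lattices of equivariant functions.

* `linearIndependent_Qb_of_int` (F1): `ℤ`-linearly independent Galois-equivariant functions
  `M → Qb` are `Qb`-linearly independent (minimal relation argument, `Qb^Gal = ℚ`).
-/
import Mathlib
import Fermat.Prelude.Def_GaloisRep_Flat

set_option autoImplicit false

noncomputable section

namespace Fermat.Agent.S19.H435

/-- The algebraic closure of `ℚ` used by the Prelude. -/
abbrev Qb : Type := AlgebraicClosure ℚ

/-- The absolute Galois group, as in the Prelude. -/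
abbrev Gal : Type := Qb ≃ₐ[ℚ] Qb

/-- `ℤ_(ℓ)` as in the Prelude. -/
abbrev Zl (ℓ : ℕ) : Type := ↥(GaloisRep.ratLocalizedAt ℓ)

/-- Equivariance of a `Qb`-valued function for a (set-theoretic) Galois action. -/
def IsEquivariantFun {M : Type*} (act : Gal → M → M) (f : M → Qb) : Prop :=
  ∀ (σ : Gal) (m : M), f (act σ m) = σ (f m)

theorem fixed_mem_range_rat (x : Qb) (hx : ∀ σ : Gal, σ x = x) :
    ∃ q : ℚ, algebraMap ℚ Qb q = x := by
  have h1 : Algebra.IsAlgebraic ℚ Qb := AlgebraicClosure.isAlgebraic ℚ
  have h2 : IsAlgClosure ℚ Qb := ⟨inferInstance, inferInstance⟩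
  have h3 : IsGalois ℚ Qb := IsAlgClosure.isGalois ℚ Qb
  exact (InfiniteGalois.mem_range_algebraMap_iff_fixed (k := ℚ) (K := Qb) x).mpr hx

/-- **F1.** `ℤ`-linearly independent equivariant functions are `Qb`-linearly independent. -/
theorem linearIndependent_Qb_of_int {M : Type*} {act : Gal → M → M} {ι : Type*} [Fintype ι]
    (f : ι → M → Qb) (hf : ∀ i, IsEquivariantFun act (f i)) (hli : LinearIndependent ℤ f) :
    LinearIndependent Qb f := by
  classical
  rw [Fintype.linearIndependent_iff]
  suffices H : ∀ n : ℕ, ∀ c : ι → Qb, (Finset.univ.filter (fun i => c i ≠ 0)).card = n →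
      ∑ i, c i • f i = 0 → ∀ i, c i = 0 from fun c hc i => H _ c rfl hc i
  intro n
  induction n using Nat.strong_induction_on with
  | _ n ih =>
    intro c hn hc
    by_contra hne
    push Not at hne
    obtain ⟨i₀, hi₀⟩ := hne
    set c' : ι → Qb := fun i => c i / c i₀ with hc'
    have hc'0 : ∑ i, c' i • f i = 0 := by
      have : ∑ i, c' i • f i = (c i₀)⁻¹ • ∑ i, c i • f i := by
        rw [Finset.smul_sum]
        refine Finset.sum_congr rfl fun i _ => ?_
        rw [smul_smul]
        congr 1
        simp only [hc', div_eq_inv_mul]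
      rw [this, hc, smul_zero]
    have hc'i₀ : c' i₀ = 1 := div_self hi₀
    have hsupp : ∀ i, c i = 0 → c' i = 0 := fun i hi => by simp [hc', hi]
    have hpt : ∀ m : M, ∑ i, c' i * f i m = 0 := by
      intro m
      have := congrFun hc'0 m
      simpa [Finset.sum_apply] using this
    have hfix : ∀ (σ : Gal) (i : ι), σ (c' i) = c' i := by
      intro σ
      set d : ι → Qb := fun i => σ (c' i) - c' i with hd
      have hd0 : ∑ i, d i • f i = 0 := by
        funext m
        simp only [Finset.sum_apply, Pi.smul_apply, smul_eq_mul, Pi.zero_apply, hd, sub_mul,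
          Finset.sum_sub_distrib]
        have h2 : ∑ i, σ (c' i) * f i m = 0 := by
          have h3 := congrArg σ (hpt (act σ⁻¹ m))
          rw [map_sum, map_zero] at h3
          rw [← h3]
          refine Finset.sum_congr rfl fun i _ => ?_
          rw [map_mul, hf i σ⁻¹ m]
          congr 1
          exact (AlgEquiv.apply_symm_apply σ (f i m)).symm
        rw [hpt m, h2, sub_zero]
      have hlt : (Finset.univ.filter (fun i => d i ≠ 0)).card < n := by
        rw [← hn]
        apply Finset.card_lt_card
        rw [Finset.ssubset_iff_of_subset]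
        · exact ⟨i₀, by simp [hi₀], by simp [hd, hc'i₀]⟩
        · intro i hi
          simp only [Finset.mem_filter, Finset.mem_univ, true_and] at hi ⊢
          intro hci
          apply hi
          simp [hd, hsupp i hci]
      intro i
      have := ih _ hlt d rfl hd0 i
      exact sub_eq_zero.mp this
    choose q hq using fun i => fixed_mem_range_rat (c' i) (fun σ => hfix σ i)
    set D : ℕ := ∏ i, (q i).den with hD
    have hDpos : 0 < D := Finset.prod_pos fun i _ => (q i).den_pos
    have hz : ∀ i, ∃ z : ℤ, (z : ℚ) = D * q i := by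
      intro i
      have hdvd : (q i).den ∣ D := Finset.dvd_prod_of_mem _ (Finset.mem_univ i)
      obtain ⟨e, he⟩ := hdvd
      refine ⟨(q i).num * e, ?_⟩
      rw [he]
      push_cast
      rw [← Rat.den_mul_eq_num (q i)]
      ring
    choose z hz using hz
    have hsum : ∑ i, z i • f i = 0 := by
      funext m
      simp only [Finset.sum_apply, Pi.zero_apply, zsmul_eq_mul, Pi.mul_apply, Pi.intCast_apply]
      have h1 : ∀ i, ((z i : ℤ) : Qb) = (D : Qb) * c' i := by
        intro i
        rw [← hq i]
        have := congrArg (algebraMap ℚ Qb) (hz i)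
        rw [map_mul, map_intCast, map_natCast] at this
        exact this
      simp only [h1, mul_assoc]
      rw [← Finset.mul_sum, hpt m, mul_zero]
    have hz0 := (Fintype.linearIndependent_iff.mp hli) z hsum
    have h0 : c' i₀ = 0 := by
      have h1 : (z i₀ : ℚ) = 0 := by rw [hz0 i₀]; simp
      rw [hz] at h1
      have h2 : q i₀ = 0 := by
        rcases mul_eq_zero.mp h1 with h | h
        · exact absurd (by exact_mod_cast h) hDpos.ne'
        · exact h
      rw [← hq i₀, h2, map_zero]
    rw [hc'i₀] at h0
    exact one_ne_zero h0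

end Fermat.Agent.S19.H435
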