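/-
A3 / WP-C (helper435): Hopf lattices of equivariant functions (helper135's `HopfLattice`),
bases, and the descent lemma `Zb·Λ ∩ {equivariant} = Λ`.
-/
import Mathlib
import Fermat.Prelude.Def_GaloisRep_Flat
import Fermat.Agent.S28.H865Dvr
import Fermat.Agent.S19.H435.Indep

set_option autoImplicit false
set_option linter.style.haveILetI false

noncomputable section

namespace Fermat.Agent.S19.H435

/-- A *Hopf lattice* on a `Gal`-set-with-addition `M`: a `ℤ_(ℓ)`-subalgebra of functions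
`M → Qb`, finitely generated as a module, consisting of equivariant functions, separating the
points of `M`, and closed under the comultiplication `f ↦ ((x, y) ↦ f (x + y))`. -/
structure IsHopfLattice (ℓ : ℕ) {M : Type*} [AddCommGroup M] (act : Gal → M → M)
    (Λ : Subalgebra (Zl ℓ) (M → Qb)) : Prop where
  fg : (Subalgebra.toSubmodule Λ).FG
  equivariant : ∀ f ∈ Λ, IsEquivariantFun act f
  separates : ∀ m n : M, m ≠ n → ∃ f ∈ Λ, f m ≠ f n
  comul_mem : ∀ f ∈ Λ, ∃ (n : ℕ) (a b : Fin n → M → Qb), (∀ k, a k ∈ Λ) ∧ (∀ k, b k ∈ Λ) ∧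
    ∀ x y : M, f (x + y) = ∑ k, a k x * b k y

section Zl

variable (ℓ : ℕ)

theorem algebraMap_Zl_Qb_injective : Function.Injective (algebraMap (Zl ℓ) Qb) := by
  intro a b h
  have h1 : algebraMap ℚ Qb (a : ℚ) = algebraMap ℚ Qb (b : ℚ) := h
  exact Subtype.ext ((algebraMap ℚ Qb).injective h1)

instance faithfulSMul_Zl_Qb : FaithfulSMul (Zl ℓ) Qb :=
  (faithfulSMul_iff_algebraMap_injective (Zl ℓ) Qb).mpr (algebraMap_Zl_Qb_injective ℓ)

instance isTorsionFree_Zl_Qb : Module.IsTorsionFree (Zl ℓ) Qb := by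
  refine Module.IsTorsionFree.of_smul_eq_zero fun r m h => ?_
  rw [Algebra.smul_def, mul_eq_zero] at h
  rcases h with h | h
  · left
    exact algebraMap_Zl_Qb_injective ℓ (by rw [h, map_zero])
  · exact Or.inr h

theorem isFractionRing_Zl : IsFractionRing (Zl ℓ) ℚ := by
  refine IsFractionRing.of_field (Zl ℓ) ℚ fun z => ?_
  refine ⟨⟨(z.num : ℚ), intCast_mem _ _⟩, ⟨(z.den : ℚ), natCast_mem _ _⟩, ?_⟩
  show z = (z.num : ℚ) / (z.den : ℚ)
  exact (Rat.num_div_den z).symm

/-- A Galois-fixed element of `Qb` which is integral over `ℤ_(ℓ)` lies in `ℤ_(ℓ)`. -/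
theorem exists_Zl_of_fixed_of_isIntegral [Fact ℓ.Prime] (x : Qb) (hx : ∀ σ : Gal, σ x = x)
    (hint : IsIntegral (Zl ℓ) x) : ∃ r : Zl ℓ, algebraMap (Zl ℓ) Qb r = x := by
  obtain ⟨q, rfl⟩ := fixed_mem_range_rat x hx
  have hq : IsIntegral (Zl ℓ) q :=
    (isIntegral_algebraMap_iff (algebraMap ℚ Qb).injective).mp hint
  haveI := isFractionRing_Zl ℓ
  obtain ⟨r, hr⟩ := IsIntegrallyClosed.isIntegral_iff.mp hq
  exact ⟨r, by rw [← hr]; rfl⟩

end Zl

variable {ℓ : ℕ} {M : Type*} [AddCommGroup M] {act : Gal → M → M}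
  {Λ : Subalgebra (Zl ℓ) (M → Qb)}

namespace IsHopfLattice

/-- Values of elements of a Hopf lattice are integral over `ℤ_(ℓ)`. -/
theorem isIntegral_apply (hΛ : IsHopfLattice ℓ act Λ) {f : M → Qb} (hf : f ∈ Λ) (m : M) :
    IsIntegral (Zl ℓ) (f m) :=
  (IsIntegral.of_mem_of_fg Λ hΛ.fg f hf).map (Pi.evalAlgHom (Zl ℓ) (fun _ : M => Qb) m)

/-- A Hopf lattice has an `ℤ_(ℓ)`-basis, which is `Qb`-linearly independent. -/
theorem exists_basis [Fact ℓ.Prime] (hΛ : IsHopfLattice ℓ act Λ) :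
    ∃ (n : ℕ) (e : Fin n → M → Qb), (∀ i, e i ∈ Λ) ∧ LinearIndependent (Zl ℓ) e ∧
      LinearIndependent Qb e ∧ ∀ f ∈ Λ, ∃ c : Fin n → Zl ℓ, f = ∑ i, c i • e i := by
  haveI : Module.Finite (Zl ℓ) (Subalgebra.toSubmodule Λ) := Module.Finite.iff_fg.mpr hΛ.fg
  haveI : Module.Free (Zl ℓ) (Subalgebra.toSubmodule Λ) :=
    Module.free_of_finite_type_torsion_free'
  let b := Module.finBasis (Zl ℓ) (Subalgebra.toSubmodule Λ)
  have hli : LinearIndependent (Zl ℓ) (fun i => ((b i : Subalgebra.toSubmodule Λ) : M → Qb)) :=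
    b.linearIndependent.map' (Subalgebra.toSubmodule Λ).subtype (Submodule.ker_subtype _)
  refine ⟨_, fun i => ((b i : Subalgebra.toSubmodule Λ) : M → Qb), fun i => (b i).2, hli, ?_, ?_⟩
  · exact linearIndependent_Qb_of_int (act := act) _ (fun i => hΛ.equivariant _ (b i).2)
      (LinearIndependent.restrict_scalars' ℤ hli)
  · intro f hf
    refine ⟨fun i => b.repr ⟨f, hf⟩ i, ?_⟩
    have := congrArg (Subalgebra.toSubmodule Λ).subtype (b.sum_repr ⟨f, hf⟩)
    rw [map_sum] at this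
    simpa using this.symm

/-- **Descent.** An equivariant function in the `Zb`-span of a Hopf lattice lies in the lattice
(`Zb` = integral closure of `ℤ_(ℓ)` in `Qb`). -/
theorem mem_of_mem_span_of_equivariant [Fact ℓ.Prime] (hΛ : IsHopfLattice ℓ act Λ)
    {u : M → Qb}
    (hu : u ∈ Submodule.span (integralClosure (Zl ℓ) Qb) (Λ : Set (M → Qb)))
    (heq : IsEquivariantFun act u) : u ∈ Λ := by
  obtain ⟨n, e, he, -, hliQ, hexp⟩ := hΛ.exists_basis
  -- coordinates with integral coefficients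
  have hcoord : ∀ v ∈ Submodule.span (integralClosure (Zl ℓ) Qb) (Λ : Set (M → Qb)),
      ∃ W : Fin n → Qb, (∀ i, IsIntegral (Zl ℓ) (W i)) ∧ v = ∑ i, W i • e i := by
    intro v hv
    induction hv using Submodule.span_induction with
    | mem f hf =>
      obtain ⟨c, hc⟩ := hexp f hf
      refine ⟨fun i => algebraMap (Zl ℓ) Qb (c i), fun i => isIntegral_algebraMap, ?_⟩
      rw [hc]
      refine Finset.sum_congr rfl fun i _ => ?_
      rw [algebraMap_smul]
    | zero => exact ⟨0, fun i => isIntegral_zero, by simp⟩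
    | add x y _ _ hx hy =>
      obtain ⟨W, hW, rfl⟩ := hx
      obtain ⟨W', hW', rfl⟩ := hy
      refine ⟨W + W', fun i => (hW i).add (hW' i), ?_⟩
      simp [add_smul, Finset.sum_add_distrib]
    | smul z x _ hx =>
      obtain ⟨W, hW, rfl⟩ := hx
      refine ⟨fun i => (z : Qb) * W i, fun i => z.2.mul (hW i), ?_⟩
      show (z : Qb) • (∑ i, W i • e i) = _
      rw [Finset.smul_sum]
      refine Finset.sum_congr rfl fun i _ => ?_
      rw [smul_smul]
  obtain ⟨W, hW, rfl⟩ := hcoord u hu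
  have hpt : ∀ m : M, (∑ i, W i • e i) m = ∑ i, W i * e i m := by
    intro m
    simp [Finset.sum_apply]
  have hfix : ∀ (σ : Gal) (i : Fin n), σ (W i) = W i := by
    intro σ
    have h0 : ∑ i, (σ (W i) - W i) • e i = 0 := by
      funext m
      simp only [Finset.sum_apply, Pi.smul_apply, smul_eq_mul, Pi.zero_apply, sub_mul,
        Finset.sum_sub_distrib]
      have h1 := heq σ⁻¹ m
      rw [hpt, hpt] at h1
      have h2 := congrArg σ h1
      rw [map_sum] at h2
      have h3 : σ (σ⁻¹ (∑ i, W i * e i m)) = ∑ i, W i * e i m :=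
        AlgEquiv.apply_symm_apply σ _
      rw [h3] at h2
      rw [← h2, sub_eq_zero]
      refine Finset.sum_congr rfl fun i _ => ?_
      rw [map_mul, hΛ.equivariant _ (he i) σ⁻¹ m]
      congr 1
      exact (AlgEquiv.apply_symm_apply σ (e i m)).symm
    intro i
    have := (Fintype.linearIndependent_iff.mp hliQ) _ h0 i
    exact sub_eq_zero.mp this
  choose r hr using fun i =>
    exists_Zl_of_fixed_of_isIntegral ℓ (W i) (fun σ => hfix σ i) (hW i)
  have : ∑ i, W i • e i = ∑ i, r i • e i := by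
    refine Finset.sum_congr rfl fun i _ => ?_
    rw [← hr i, algebraMap_smul]
  rw [this]
  exact Subalgebra.sum_mem _ fun i _ => Subalgebra.smul_mem _ (he i) _

end IsHopfLattice

end Fermat.Agent.S19.H435
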