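/-
A3 / WP-C piece F (helper435): quotients of Hopf lattices.

For a surjective additive map `π : M →+ M''` compatible with the Galois actions, the functions
`g : M'' → Qb` with `g ∘ π ∈ Λ` form a Hopf lattice on `M''`.  No Cartier duality is used:
* the invariant sublattice is saturated, hence a direct summand (`exists_retraction`);
* `Δ`-closedness follows from `Qb`-independence of a basis (F1);
* separation of cosets uses norms `m ↦ ∏_{k ∈ ker π} h (m + k)` and Neumann's covering lemma.
-/
import Mathlib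
import Fermat.Prelude.Def_GaloisRep_Flat
import Fermat.Agent.S28.H865Dvr
import Fermat.Agent.S19.H435.Lattice

set_option autoImplicit false
set_option linter.style.haveILetI false

noncomputable section

namespace Fermat.Agent.S19.H435

/-- A saturated submodule of a finite module over a PID is a direct summand. -/
theorem exists_retraction {R V : Type*} [CommRing R] [IsDomain R] [IsPrincipalIdealRing R]
    [AddCommGroup V] [Module R V] [Module.Finite R V] (N : Submodule R V)
    (hsat : ∀ (r : R) (v : V), r ≠ 0 → r • v ∈ N → v ∈ N) :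
    ∃ ρ : V →ₗ[R] V, (∀ v, ρ v ∈ N) ∧ ∀ v ∈ N, ρ v = v := by
  haveI : Module.IsTorsionFree R (V ⧸ N) := by
    refine Module.IsTorsionFree.of_smul_eq_zero fun r m h => ?_
    obtain ⟨v, rfl⟩ := N.mkQ_surjective m
    by_cases hr : r = 0
    · exact Or.inl hr
    · right
      rw [← map_smul, Submodule.mkQ_apply, Submodule.Quotient.mk_eq_zero] at h
      rw [Submodule.mkQ_apply, Submodule.Quotient.mk_eq_zero]
      exact hsat r v hr h
  haveI : Module.Free R (V ⧸ N) := Module.free_of_finite_type_torsion_free'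
  obtain ⟨s, hs⟩ := Module.projective_lifting_property N.mkQ LinearMap.id N.mkQ_surjective
  refine ⟨LinearMap.id - s ∘ₗ N.mkQ, ?_, ?_⟩
  · intro v
    rw [← Submodule.Quotient.mk_eq_zero]
    have h1 := LinearMap.congr_fun hs (N.mkQ v)
    simp only [LinearMap.comp_apply, LinearMap.id_apply, Submodule.mkQ_apply] at h1
    simp only [LinearMap.sub_apply, LinearMap.id_apply, LinearMap.comp_apply,
      Submodule.mkQ_apply, Submodule.Quotient.mk_sub, h1, sub_self]
  · intro v hv
    have h1 : N.mkQ v = 0 := by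
      rw [Submodule.mkQ_apply, Submodule.Quotient.mk_eq_zero]
      exact hv
    simp only [LinearMap.sub_apply, LinearMap.id_apply, LinearMap.comp_apply, h1, map_zero,
      sub_zero]

variable {ℓ : ℕ} {M : Type*} [AddCommGroup M] {act : Gal → M → M}
  {Λ : Subalgebra (Zl ℓ) (M → Qb)}

namespace IsHopfLattice

theorem act_add (hΛ : IsHopfLattice ℓ act Λ) (σ : Gal) (x y : M) :
    act σ (x + y) = act σ x + act σ y := by
  by_contra hne
  obtain ⟨f, hf, hfne⟩ := hΛ.separates _ _ hne
  apply hfne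
  obtain ⟨n, a, b, ha, hb, hab⟩ := hΛ.comul_mem f hf
  rw [hΛ.equivariant f hf σ, hab, hab, map_sum]
  refine Finset.sum_congr rfl fun k _ => ?_
  rw [map_mul, hΛ.equivariant _ (ha k) σ, hΛ.equivariant _ (hb k) σ]

theorem act_zero (hΛ : IsHopfLattice ℓ act Λ) (σ : Gal) : act σ 0 = 0 := by
  have h := hΛ.act_add σ 0 0
  rw [add_zero] at h
  exact left_eq_add.mp h

theorem act_inv_act (hΛ : IsHopfLattice ℓ act Λ) (σ : Gal) (m : M) :
    act σ⁻¹ (act σ m) = m := by
  by_contra hne
  obtain ⟨f, hf, hfne⟩ := hΛ.separates _ _ hne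
  apply hfne
  rw [hΛ.equivariant f hf σ⁻¹, hΛ.equivariant f hf σ]
  exact AlgEquiv.symm_apply_apply σ (f m)

theorem act_act_inv (hΛ : IsHopfLattice ℓ act Λ) (σ : Gal) (m : M) :
    act σ (act σ⁻¹ m) = m := by
  have := hΛ.act_inv_act σ⁻¹ m
  rwa [inv_inv] at this

end IsHopfLattice

/-- `f` factors through `π`. -/
def IsInvFun {M'' : Type*} (π : M → M'') (f : M → Qb) : Prop :=
  ∀ x y : M, π x = π y → f x = f y

omit [AddCommGroup M] in
theorem sum_smul_apply' {n : ℕ} (c : Fin n → Zl ℓ) (g : Fin n → M → Qb) (x : M) :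
    (∑ i, c i • g i) x = ∑ i, algebraMap (Zl ℓ) Qb (c i) * g i x := by
  simp [Finset.sum_apply, Algebra.smul_def]

namespace IsHopfLattice

/-- **F3.** The comultiplication of an invariant element of a Hopf lattice can be written with
invariant elements of the lattice. -/
theorem comul_inv [Fact ℓ.Prime] (hΛ : IsHopfLattice ℓ act Λ) {M'' : Type*} [AddCommGroup M'']
    (π : M →+ M'') {f : M → Qb} (hf : f ∈ Λ) (hinv : IsInvFun π f) :
    ∃ (n : ℕ) (a b : Fin n → M → Qb), (∀ k, a k ∈ Λ ∧ IsInvFun π (a k)) ∧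
      (∀ k, b k ∈ Λ ∧ IsInvFun π (b k)) ∧ ∀ x y : M, f (x + y) = ∑ k, a k x * b k y := by
  classical
  obtain ⟨n, e, he, -, hliQ, hexp⟩ := hΛ.exists_basis
  obtain ⟨p, a, b, ha, hb, hab⟩ := hΛ.comul_mem f hf
  choose β hβ using fun k => hexp (b k) (hb k)
  -- Step 1
  set u : Fin n → M → Qb := fun j => ∑ k, β k j • a k with hu
  have hu_mem : ∀ j, u j ∈ Λ := fun j =>
    Subalgebra.sum_mem _ fun k _ => Subalgebra.smul_mem _ (ha k) _
  have hu_apply : ∀ j x, u j x = ∑ k, algebraMap (Zl ℓ) Qb (β k j) * a k x := by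
    intro j x
    simp [hu, Finset.sum_apply, Algebra.smul_def]
  have hfu : ∀ x y, f (x + y) = ∑ j, u j x * e j y := by
    intro x y
    rw [hab]
    simp only [hu_apply, Finset.sum_mul]
    rw [Finset.sum_comm]
    refine Finset.sum_congr rfl fun k _ => ?_
    conv_lhs => rw [hβ k, sum_smul_apply', Finset.mul_sum]
    refine Finset.sum_congr rfl fun j _ => ?_
    ring
  have key : ∀ (d : Fin n → Qb), (∀ y, ∑ j, d j * e j y = 0) → ∀ j, d j = 0 := by
    intro d hd
    refine Fintype.linearIndependent_iff.mp hliQ d ?_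
    funext y
    simpa [Finset.sum_apply] using hd y
  have hu_inv : ∀ j, IsInvFun π (u j) := by
    intro j x x' hxx'
    have h0 : ∀ y, ∑ j, (u j x - u j x') * e j y = 0 := by
      intro y
      simp only [sub_mul, Finset.sum_sub_distrib]
      rw [← hfu, ← hfu, sub_eq_zero]
      exact hinv _ _ (by rw [map_add, map_add, hxx'])
    exact sub_eq_zero.mp (key _ h0 j)
  -- Step 2
  choose γ hγ using fun j => hexp (u j) (hu_mem j)
  -- Step 3
  set w : Fin n → M → Qb := fun i => ∑ j, γ j i • e j with hw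
  have hw_mem : ∀ i, w i ∈ Λ := fun i =>
    Subalgebra.sum_mem _ fun j _ => Subalgebra.smul_mem _ (he j) _
  have hw_apply : ∀ i y, w i y = ∑ j, algebraMap (Zl ℓ) Qb (γ j i) * e j y := by
    intro i y
    simp [hw, Finset.sum_apply, Algebra.smul_def]
  have hfw : ∀ x y, f (x + y) = ∑ i, e i x * w i y := by
    intro x y
    rw [hfu]
    simp only [hw_apply, Finset.mul_sum]
    rw [Finset.sum_comm]
    refine Finset.sum_congr rfl fun j _ => ?_
    conv_lhs => rw [hγ j, sum_smul_apply', Finset.sum_mul]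
    refine Finset.sum_congr rfl fun i _ => ?_
    ring
  have hw_inv : ∀ i, IsInvFun π (w i) := by
    intro i y y' hyy'
    have h0 : ∀ x, ∑ i, (w i y - w i y') * e i x = 0 := by
      intro x
      simp only [sub_mul, Finset.sum_sub_distrib]
      have h1 := hfw x y
      have h2 := hfw x y'
      have h3 : f (x + y) = f (x + y') := hinv _ _ (by rw [map_add, map_add, hyy'])
      rw [sub_eq_zero]
      calc ∑ i, w i y * e i x = f (x + y) := by
            rw [h1]; exact Finset.sum_congr rfl fun i _ => mul_comm _ _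
        _ = f (x + y') := h3
        _ = ∑ i, w i y' * e i x := by
            rw [h2]; exact Finset.sum_congr rfl fun i _ => mul_comm _ _
    exact sub_eq_zero.mp (key _ h0 i)
  -- Step 4: the retraction
  haveI : Module.Finite (Zl ℓ) (Subalgebra.toSubmodule Λ) := Module.Finite.iff_fg.mpr hΛ.fg
  let N : Submodule (Zl ℓ) (Subalgebra.toSubmodule Λ) :=
    { carrier := {v | IsInvFun π (v : M → Qb)}
      add_mem' := by
        intro v v' hv hv' x y hxy
        show (v : M → Qb) x + (v' : M → Qb) x = (v : M → Qb) y + (v' : M → Qb) y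
        rw [hv x y hxy, hv' x y hxy]
      zero_mem' := fun x y _ => rfl
      smul_mem' := by
        intro r v hv x y hxy
        show r • (v : M → Qb) x = r • (v : M → Qb) y
        rw [hv x y hxy] }
  have hsat : ∀ (r : Zl ℓ) (v : Subalgebra.toSubmodule Λ), r ≠ 0 → r • v ∈ N → v ∈ N := by
    intro r v hr hv x y hxy
    have h1 : r • (v : M → Qb) x = r • (v : M → Qb) y := hv x y hxy
    rw [Algebra.smul_def, Algebra.smul_def] at h1
    have h2 : algebraMap (Zl ℓ) Qb r ≠ 0 := fun h =>
      hr (algebraMap_Zl_Qb_injective ℓ (by rw [h, map_zero]))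
    exact mul_left_cancel₀ h2 h1
  obtain ⟨ρ, hρN, hρid⟩ := exists_retraction N hsat
  let E : Fin n → Subalgebra.toSubmodule Λ := fun i => ⟨e i, he i⟩
  have hρu : ∀ j x, u j x = ∑ i, algebraMap (Zl ℓ) Qb (γ j i) * ((ρ (E i) : Subalgebra.toSubmodule Λ) : M → Qb) x := by
    intro j x
    have h1 : (⟨u j, hu_mem j⟩ : Subalgebra.toSubmodule Λ) = ∑ i, γ j i • E i := by
      apply Subtype.ext
      rw [Submodule.coe_sum]
      exact hγ j
    calc u j x = ((ρ ⟨u j, hu_mem j⟩ : Subalgebra.toSubmodule Λ) : M → Qb) x := by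
          rw [hρid _ (hu_inv j)]
      _ = ((∑ i, γ j i • ρ (E i) : Subalgebra.toSubmodule Λ) : M → Qb) x := by
          rw [h1, map_sum]
          simp only [map_smul]
      _ = (∑ i, γ j i • ((ρ (E i) : Subalgebra.toSubmodule Λ) : M → Qb)) x := by
          rw [Submodule.coe_sum]
          rfl
      _ = _ := sum_smul_apply' _ _ x
  refine ⟨n, fun i => ((ρ (E i) : Subalgebra.toSubmodule Λ) : M → Qb), w,
    fun i => ⟨(ρ (E i)).2, hρN (E i)⟩, fun i => ⟨hw_mem i, hw_inv i⟩, ?_⟩
  intro x y
  rw [hfu]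
  simp only [hρu, hw_apply, Finset.sum_mul, Finset.mul_sum]
  rw [Finset.sum_comm]
  refine Finset.sum_congr rfl fun i _ => Finset.sum_congr rfl fun j _ => ?_
  ring

/-- Translates of lattice elements lie in the `Zb`-span of the lattice. -/
theorem translate_mem_span (hΛ : IsHopfLattice ℓ act Λ) {h : M → Qb} (hh : h ∈ Λ) (k : M) :
    (fun m => h (m + k)) ∈
      Submodule.span (integralClosure (Zl ℓ) Qb) (Λ : Set (M → Qb)) := by
  obtain ⟨n, a, b, ha, hb, hab⟩ := hΛ.comul_mem h hh
  have : (fun m => h (m + k)) =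
      ∑ j, (⟨b j k, hΛ.isIntegral_apply (hb j) k⟩ : integralClosure (Zl ℓ) Qb) • a j := by
    funext m
    rw [hab, Finset.sum_apply]
    refine Finset.sum_congr rfl fun j _ => ?_
    show a j m * b j k = b j k * a j m
    exact mul_comm _ _
  rw [this]
  exact Submodule.sum_mem _ fun j _ => Submodule.smul_mem _ _ (Submodule.subset_span (ha j))

omit [AddCommGroup M] in
theorem span_eq_adjoin (Λ : Subalgebra (Zl ℓ) (M → Qb)) :
    Submodule.span (integralClosure (Zl ℓ) Qb) (Λ : Set (M → Qb)) =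
      Subalgebra.toSubmodule (Algebra.adjoin (integralClosure (Zl ℓ) Qb) (Λ : Set (M → Qb))) := by
  rw [Algebra.adjoin_eq_span]
  congr 1
  have : (Λ : Set (M → Qb)) = ((Λ.toSubmonoid : Submonoid (M → Qb)) : Set (M → Qb)) := rfl
  rw [this, Submonoid.closure_eq]

section Norm

variable [Fintype M] [DecidableEq M] {M'' : Type*} [AddCommGroup M''] [DecidableEq M'']

/-- The kernel of `π` as a finset. -/
def kerFinset (π : M →+ M'') : Finset M := Finset.univ.filter (fun k => π k = 0)

omit [DecidableEq M] in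
theorem mem_kerFinset (π : M →+ M'') (k : M) : k ∈ kerFinset π ↔ π k = 0 := by
  simp [kerFinset]

/-- The norm of a function along the fibres of `π`. -/
def normFun (π : M →+ M'') (h : M → Qb) : M → Qb := fun m => ∏ k ∈ kerFinset π, h (m + k)

omit [DecidableEq M] in
theorem normFun_inv (π : M →+ M'') (h : M → Qb) : IsInvFun π (normFun π h) := by
  intro x x' hxx'
  unfold normFun
  have hk₀ : π (x' - x) = 0 := by rw [map_sub, hxx', sub_self]
  refine Finset.prod_nbij' (fun k => k - (x' - x)) (fun k => k + (x' - x)) ?_ ?_ ?_ ?_ ?_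
  · intro k hk
    rw [mem_kerFinset] at hk ⊢
    rw [map_sub, hk, hk₀, sub_zero]
  · intro k hk
    rw [mem_kerFinset] at hk ⊢
    rw [map_add, hk, hk₀, add_zero]
  · intro k _
    abel
  · intro k _
    abel
  · intro k _
    congr 1
    abel

omit [DecidableEq M] in
theorem normFun_mem [Fact ℓ.Prime] (hΛ : IsHopfLattice ℓ act Λ) (π : M →+ M'')
    (act'' : Gal → M'' → M'') (hcompat : ∀ σ m, act'' σ (π m) = π (act σ m))
    {h : M → Qb} (hh : h ∈ Λ) : normFun π h ∈ Λ := by
  have hstab : ∀ (σ : Gal) (k : M), k ∈ kerFinset π → act σ k ∈ kerFinset π := by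
    intro σ k hk
    rw [mem_kerFinset] at hk ⊢
    rw [← hcompat, hk, ← map_zero π, hcompat, hΛ.act_zero, map_zero]
  apply hΛ.mem_of_mem_span_of_equivariant
  · rw [span_eq_adjoin]
    have : normFun π h = ∏ k ∈ kerFinset π, (fun m => h (m + k)) := by
      funext m
      simp [normFun, Finset.prod_apply]
    rw [this]
    refine Subalgebra.prod_mem _ fun k _ => ?_
    have := hΛ.translate_mem_span hh k
    rw [span_eq_adjoin] at this
    exact this
  · intro σ m
    unfold normFun
    rw [map_prod]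
    refine Finset.prod_nbij' (fun k => act σ⁻¹ k) (fun k => act σ k) ?_ ?_ ?_ ?_ ?_
    · intro k hk
      exact hstab σ⁻¹ k hk
    · intro k hk
      exact hstab σ k hk
    · intro k _
      exact hΛ.act_act_inv σ k
    · intro k _
      exact hΛ.act_inv_act σ k
    · intro k _
      rw [← hΛ.equivariant h hh σ, hΛ.act_add, hΛ.act_act_inv]

end Norm

/-- **F4.** Invariant elements of a Hopf lattice separate the fibres of `π`. -/
theorem exists_inv_separating [Fact ℓ.Prime] [Finite M] (hΛ : IsHopfLattice ℓ act Λ)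
    {M'' : Type*} [AddCommGroup M''] (π : M →+ M'')
    (act'' : Gal → M'' → M'') (hcompat : ∀ σ m, act'' σ (π m) = π (act σ m))
    (x y : M) (hxy : π x ≠ π y) : ∃ f ∈ Λ, IsInvFun π f ∧ f x ≠ f y := by
  classical
  haveI : Fintype M := Fintype.ofFinite M
  by_contra hcon
  push Not at hcon
  -- Step a
  have stepa : ∀ h ∈ Λ, ∃ k ∈ kerFinset π, h x = h (y + k) := by
    intro h hh
    let P : Polynomial Qb := ∏ k ∈ kerFinset π, (Polynomial.C (h (x + k)) - Polynomial.X)
    let Q : Polynomial Qb := ∏ k ∈ kerFinset π, (Polynomial.C (h (y + k)) - Polynomial.X)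
    have hevalP : ∀ z : Qb, Polynomial.eval z P = ∏ k ∈ kerFinset π, (h (x + k) - z) := by
      intro z
      simp [P, Polynomial.eval_prod]
    have hevalQ : ∀ z : Qb, Polynomial.eval z Q = ∏ k ∈ kerFinset π, (h (y + k) - z) := by
      intro z
      simp [Q, Polynomial.eval_prod]
    have hPQ : P = Q := by
      apply Polynomial.eq_of_infinite_eval_eq
      refine Set.infinite_of_injective_forall_mem (f := fun n : ℤ => (n : Qb))
        Int.cast_injective fun c => ?_
      show Polynomial.eval (c : Qb) P = Polynomial.eval (c : Qb) Q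
      rw [hevalP, hevalQ]
      have hmem : h - algebraMap (Zl ℓ) (M → Qb) (c : Zl ℓ) ∈ Λ :=
        Subalgebra.sub_mem _ hh (Subalgebra.algebraMap_mem _ _)
      have := hcon _ (hΛ.normFun_mem π act'' hcompat hmem) (normFun_inv π _)
      have hpt : ∀ m : M, (h - algebraMap (Zl ℓ) (M → Qb) (c : Zl ℓ)) m = h m - (c : Qb) := by
        intro m
        rw [Pi.sub_apply, Pi.algebraMap_apply, map_intCast]
      simpa [normFun, hpt] using this
    have h0 : Polynomial.eval (h x) P = 0 := by
      rw [hevalP]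
      refine Finset.prod_eq_zero (i := 0) ((mem_kerFinset π 0).mpr (map_zero π)) ?_
      rw [add_zero, sub_self]
    rw [hPQ, hevalQ, Finset.prod_eq_zero_iff] at h0
    obtain ⟨k, hk, hk0⟩ := h0
    exact ⟨k, hk, (sub_eq_zero.mp hk0).symm⟩
  -- Step b
  let φ : M → (Subalgebra.toSubmodule Λ) →ₗ[Zl ℓ] Qb := fun k =>
    ((LinearMap.proj x : (M → Qb) →ₗ[Zl ℓ] Qb) -
      (LinearMap.proj (y + k) : (M → Qb) →ₗ[Zl ℓ] Qb)) ∘ₗ (Subalgebra.toSubmodule Λ).subtype
  have hφ : ∀ k (v : Subalgebra.toSubmodule Λ), φ k v = (v : M → Qb) x - (v : M → Qb) (y + k) :=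
    fun k v => rfl
  let pk : M → Submodule (Zl ℓ) (Subalgebra.toSubmodule Λ) := fun k => LinearMap.ker (φ k)
  have hcover : ⋃ k ∈ kerFinset π, ((pk k : Submodule (Zl ℓ) (Subalgebra.toSubmodule Λ)) :
      Set (Subalgebra.toSubmodule Λ)) = Set.univ := by
    rw [Set.eq_univ_iff_forall]
    intro v
    obtain ⟨k, hk, hvk⟩ := stepa v.1 v.2
    simp only [Set.mem_iUnion]
    refine ⟨k, hk, ?_⟩
    show φ k v = 0
    rw [hφ, sub_eq_zero]
    exact hvk
  obtain ⟨k, hk, hfi⟩ := Submodule.exists_finiteIndex_of_cover hcover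
  have hxk : x ≠ y + k := by
    intro h
    apply hxy
    rw [h, map_add, (mem_kerFinset π k).mp hk, add_zero]
  obtain ⟨h₀, hh₀, hne⟩ := hΛ.separates _ _ hxk
  haveI : (pk k).toAddSubgroup.FiniteIndex := hfi
  haveI : Finite ((Subalgebra.toSubmodule Λ) ⧸ (pk k).toAddSubgroup) :=
    AddSubgroup.finite_quotient_of_finiteIndex
  let v₀ : Subalgebra.toSubmodule Λ := ⟨h₀, hh₀⟩
  have hinj : Function.Injective
      (fun n : ℕ => (QuotientAddGroup.mk (n • v₀) :
        (Subalgebra.toSubmodule Λ) ⧸ (pk k).toAddSubgroup)) := by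
    intro n n' hnn'
    have h1 := QuotientAddGroup.eq.mp hnn'
    have h2 : φ k (-(n • v₀) + n' • v₀) = 0 := h1
    rw [map_add, map_neg, map_nsmul, map_nsmul, hφ] at h2
    have h3 : h₀ x - h₀ (y + k) ≠ 0 := sub_ne_zero.mpr hne
    have h4 : ((n' : Qb) - (n : Qb)) * (h₀ x - h₀ (y + k)) = 0 := by
      have : (v₀ : M → Qb) = h₀ := rfl
      rw [this] at h2
      rw [← h2]
      simp only [nsmul_eq_mul]
      ring
    rcases mul_eq_zero.mp h4 with h | h
    · have : (n' : Qb) = (n : Qb) := sub_eq_zero.mp h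
      exact (Nat.cast_injective this).symm
    · exact absurd h h3
  haveI : Finite ℕ := Finite.of_injective _ hinj
  exact not_finite ℕ

end IsHopfLattice

/-- Precomposition with `π`, as a `ℤ_(ℓ)`-algebra homomorphism. -/
def precompAlgHom (ℓ : ℕ) {M M'' : Type*} (π : M → M'') : (M'' → Qb) →ₐ[Zl ℓ] (M → Qb) where
  toFun g := g ∘ π
  map_one' := rfl
  map_mul' _ _ := rfl
  map_zero' := rfl
  map_add' _ _ := rfl
  commutes' _ := rfl

@[simp]
theorem precompAlgHom_apply (ℓ : ℕ) {M M'' : Type*} (π : M → M'') (g : M'' → Qb) (m : M) :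
    precompAlgHom ℓ π g m = g (π m) := rfl

namespace IsHopfLattice

/-- **Piece F (quotients).** If `Λ` is a Hopf lattice on `M` and `π : M →+ M''` is a surjective
additive map compatible with the Galois actions, then the functions `g` on `M''` with
`g ∘ π ∈ Λ` form a Hopf lattice on `M''`. -/
theorem quotient [Fact ℓ.Prime] [Finite M] (hΛ : IsHopfLattice ℓ act Λ)
    {M'' : Type*} [AddCommGroup M''] (π : M →+ M'') (hπ : Function.Surjective π)
    (act'' : Gal → M'' → M'') (hcompat : ∀ σ m, act'' σ (π m) = π (act σ m)) :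
    IsHopfLattice ℓ act'' (Λ.comap (precompAlgHom ℓ π)) := by
  have hdesc : ∀ f : M → Qb, IsInvFun π f → (f ∘ Function.surjInv hπ) ∘ π = f := by
    intro f hf
    funext m
    exact hf _ _ (Function.surjInv_eq hπ (π m))
  refine ⟨?_, ?_, ?_, ?_⟩
  · have hinj : Function.Injective (precompAlgHom ℓ π).toLinearMap := by
      intro g g' h
      funext m''
      obtain ⟨m, rfl⟩ := hπ m''
      exact congrFun h m
    apply Submodule.fg_of_fg_map_injective (precompAlgHom ℓ π).toLinearMap hinj
    apply Submodule.FG.of_le hΛ.fg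
    rintro _ ⟨g, hg, rfl⟩
    exact hg
  · intro g hg σ m''
    obtain ⟨m, rfl⟩ := hπ m''
    rw [hcompat]
    exact hΛ.equivariant _ hg σ m
  · intro m'' n'' hne
    obtain ⟨x, rfl⟩ := hπ m''
    obtain ⟨y, rfl⟩ := hπ n''
    obtain ⟨f, hf, hfinv, hfne⟩ := hΛ.exists_inv_separating π act'' hcompat x y hne
    refine ⟨f ∘ Function.surjInv hπ, ?_, ?_⟩
    · show (f ∘ Function.surjInv hπ) ∘ π ∈ Λ
      rw [hdesc f hfinv]
      exact hf
    · have h1 := congrFun (hdesc f hfinv) x
      have h2 := congrFun (hdesc f hfinv) y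
      simp only [Function.comp_apply] at h1 h2 ⊢
      rw [h1, h2]
      exact hfne
  · intro g hg
    have hginv : IsInvFun π (g ∘ π) := fun x y hxy => by
      simp only [Function.comp_apply, hxy]
    obtain ⟨n, a, b, ha, hb, hab⟩ := hΛ.comul_inv π (f := g ∘ π) hg hginv
    refine ⟨n, fun k => a k ∘ Function.surjInv hπ, fun k => b k ∘ Function.surjInv hπ,
      fun k => ?_, fun k => ?_, ?_⟩
    · show (a k ∘ Function.surjInv hπ) ∘ π ∈ Λ
      rw [hdesc _ (ha k).2]
      exact (ha k).1
    · show (b k ∘ Function.surjInv hπ) ∘ π ∈ Λ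
      rw [hdesc _ (hb k).2]
      exact (hb k).1
    · intro x'' y''
      obtain ⟨x, rfl⟩ := hπ x''
      obtain ⟨y, rfl⟩ := hπ y''
      have h1 := hab x y
      simp only [Function.comp_apply, map_add] at h1
      rw [h1]
      refine Finset.sum_congr rfl fun k _ => ?_
      have h2 := congrFun (hdesc _ (ha k).2) x
      have h3 := congrFun (hdesc _ (hb k).2) y
      simp only [Function.comp_apply] at h2 h3 ⊢
      rw [h2, h3]

end IsHopfLattice

end Fermat.Agent.S19.H435
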