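/-
A3 / WP-C (helper435): adapters between Hopf lattices and the frozen A3 interface
(`Fermat.Agent.S19.OrderDatum`), and finiteness of the underlying set.
-/
import Mathlib
import Fermat.Agent.S19.Defs
import Fermat.Agent.S19.H435.Quot

set_option autoImplicit false
set_option linter.style.haveILetI false

noncomputable section

namespace Fermat.Agent.S19.H435

namespace IsHopfLattice

/-- The underlying set of a Hopf lattice is finite. -/
theorem finite {ℓ : ℕ} {M : Type*} [AddCommGroup M] {act : Gal → M → M}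
    {Λ : Subalgebra (Zl ℓ) (M → Qb)} (hΛ : IsHopfLattice ℓ act Λ) : Finite M := by
  classical
  obtain ⟨S, hS⟩ := hΛ.fg
  have hSΛ : ∀ s ∈ S, s ∈ Λ := fun s hs => by
    have : s ∈ Submodule.span (Zl ℓ) (S : Set (M → Qb)) := Submodule.subset_span hs
    rw [hS] at this
    exact this
  -- the values of each generator lie in a finite set
  have hfin : ∀ s : S, (Set.range (s : M → Qb)).Finite := by
    intro s
    obtain ⟨p, hp, hps⟩ := IsIntegral.of_mem_of_fg Λ hΛ.fg s.1 (hSΛ s.1 s.2)
    have hp0 : p.map (algebraMap (Zl ℓ) Qb) ≠ 0 := (hp.map _).ne_zero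
    refine Set.Finite.subset ((p.map (algebraMap (Zl ℓ) Qb)).roots.toFinset.finite_toSet) ?_
    rintro _ ⟨m, rfl⟩
    simp only [Finset.mem_coe, Multiset.mem_toFinset, Polynomial.mem_roots hp0,
      Polynomial.IsRoot.def, Polynomial.eval_map]
    have h1 := congrFun hps m
    rw [← Polynomial.aeval_def] at h1
    have h2 : (Polynomial.aeval (s : M → Qb) p) m = Polynomial.aeval ((s : M → Qb) m) p := by
      have := Polynomial.aeval_algHom_apply (Pi.evalAlgHom (Zl ℓ) (fun _ : M => Qb) m)
        (s : M → Qb) p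
      exact this.symm
    rw [h2] at h1
    rw [← Polynomial.aeval_def]
    exact h1
  have hpi : {F : S → Qb | ∀ s : S, F s ∈ Set.range s.1}.Finite := Set.Finite.pi' hfin
  let Φ : M → {F : S → Qb | ∀ s : S, F s ∈ Set.range s.1} :=
    fun m => ⟨fun s => s.1 m, fun s => ⟨m, rfl⟩⟩
  have hΦ : Function.Injective Φ := by
    intro m n hmn
    by_contra hne
    obtain ⟨f, hf, hfne⟩ := hΛ.separates m n hne
    apply hfne
    have hgen : ∀ s ∈ S, s m = s n := by
      intro s hs
      have := congrArg (fun F : {F : S → Qb | ∀ s : S, F s ∈ Set.range s.1} =>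
        (F : S → Qb) ⟨s, hs⟩) hmn
      exact this
    have hall : ∀ g ∈ Submodule.span (Zl ℓ) (S : Set (M → Qb)), g m = g n := by
      intro g hg
      induction hg using Submodule.span_induction with
      | mem s hs => exact hgen s hs
      | zero => rfl
      | add x y _ _ hx hy => rw [Pi.add_apply, Pi.add_apply, hx, hy]
      | smul r x _ hx => rw [Pi.smul_apply, Pi.smul_apply, hx]
    exact hall f (by rw [hS]; exact hf)
  haveI := hpi.to_subtype
  exact Finite.of_injective Φ hΦ

/-- A Hopf lattice gives an order datum in the sense of the frozen A3 interface. -/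
def toOrderDatum {ℓ : ℕ} {M : Type} [AddCommGroup M] {act : Gal → M → M}
    {Λ : Subalgebra (Zl ℓ) (M → Qb)} (hΛ : IsHopfLattice ℓ act Λ) :
    Fermat.Agent.S19.OrderDatum ℓ M act where
  act_add := hΛ.act_add
  gens := (Λ : Set (M → Qb))
  equivariant := fun f hf => hΛ.equivariant f hf
  integral := fun _ hf m => hΛ.isIntegral_apply hf m
  separates := fun m m' h => by
    by_contra hne
    obtain ⟨f, hf, hfne⟩ := hΛ.separates m m' hne
    exact hfne (h f hf)
  add_mem := fun f hf => by
    obtain ⟨n, a, b, ha, hb, hab⟩ := hΛ.comul_mem f hf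
    have : (fun p : M × M => f (p.1 + p.2)) =
        ∑ k, (fun p : M × M => a k p.1) * (fun p : M × M => b k p.2) := by
      funext p
      rw [hab, Finset.sum_apply]
      rfl
    rw [this]
    refine Subalgebra.sum_mem _ fun k _ => Subalgebra.mul_mem _ ?_ ?_
    · exact Algebra.subset_adjoin (Or.inl ⟨a k, ha k, rfl⟩)
    · exact Algebra.subset_adjoin (Or.inr ⟨b k, hb k, rfl⟩)

/-- A Hopf lattice gives a Hopf model, given the ORD block of the frozen interface. -/
theorem hopfModel (hord : Fermat.Agent.S19.OrdStatement) {ℓ : ℕ} [Fact ℓ.Prime] {M : Type}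
    [AddCommGroup M] {act : Gal → M → M} {Λ : Subalgebra (Zl ℓ) (M → Qb)}
    (hΛ : IsHopfLattice ℓ act Λ) : Fermat.Agent.S19.HopfModel ℓ M act := by
  haveI : Finite M := hΛ.finite
  exact hord ℓ M act ⟨hΛ.toOrderDatum⟩

end IsHopfLattice

end Fermat.Agent.S19.H435
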