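/-
A3 / WP-C piece A (helper435): a Hopf model (frozen interface `HopfModel`) gives a Hopf lattice:
`Λ :=` image of `H` under evaluation at the points.
-/
import Mathlib
import Fermat.Agent.S19.Defs
import Fermat.Agent.S19.H435.Adapter

set_option autoImplicit false
set_option linter.style.haveILetI false

noncomputable section

namespace Fermat.Agent.S19.H435

open TensorProduct

/-- Every tensor is a `Fin`-indexed sum of pure tensors. -/
theorem exists_fin_tmul {R : Type*} [CommSemiring R] {A B : Type*} [AddCommMonoid A]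
    [AddCommMonoid B] [Module R A] [Module R B] (t : A ⊗[R] B) :
    ∃ (n : ℕ) (a : Fin n → A) (b : Fin n → B), t = ∑ k, a k ⊗ₜ[R] b k := by
  induction t using TensorProduct.induction_on with
  | zero => exact ⟨0, Fin.elim0, Fin.elim0, by simp⟩
  | tmul a b => exact ⟨1, fun _ => a, fun _ => b, by simp⟩
  | add x y hx hy =>
    obtain ⟨n, a, b, rfl⟩ := hx
    obtain ⟨m, a', b', rfl⟩ := hy
    refine ⟨n + m, Fin.append a a', Fin.append b b', ?_⟩
    rw [Fin.sum_univ_add]
    simp only [Fin.append_left, Fin.append_right]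

/-- **Piece A.** A Hopf model gives a Hopf lattice. -/
theorem exists_isHopfLattice_of_hopfModel {ℓ : ℕ} {M : Type} [AddCommGroup M]
    {act : Gal → M → M} (h : Fermat.Agent.S19.HopfModel ℓ M act) :
    ∃ Λ : Subalgebra (Zl ℓ) (M → Qb), IsHopfLattice ℓ act Λ := by
  obtain ⟨H, _, _, hfin, -, -, e, hmul, hgal⟩ := h
  let ev : H →ₐ[Zl ℓ] (M → Qb) := AlgHom.pi (fun m => (e.symm m).ofConv)
  have hev : ∀ (x : H) (m : M), ev x m = (e.symm m).ofConv x := fun _ _ => rfl
  refine ⟨ev.range, ?_, ?_, ?_, ?_⟩
  · -- finitely generated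
    have h1 : Subalgebra.toSubmodule ev.range = Submodule.map ev.toLinearMap ⊤ := by
      ext f
      simp [AlgHom.mem_range]
    rw [h1]
    exact Submodule.FG.map _ (Module.finite_def.mp hfin)
  · -- equivariance
    rintro _ ⟨x, rfl⟩ σ m
    show ev x (act σ m) = σ (ev x m)
    rw [hev, hev]
    let σR : Qb →ₐ[Zl ℓ] Qb := (σ : Qb →ₐ[ℚ] Qb).restrictScalars (Zl ℓ)
    let y : WithConv (H →ₐ[Zl ℓ] Qb) := WithConv.toConv (σR.comp (e.symm m).ofConv)
    have hy : e y = act σ (e (e.symm m)) := hgal σ (e.symm m) y (fun _ => rfl)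
    rw [Equiv.apply_symm_apply] at hy
    rw [← hy, Equiv.symm_apply_apply]
    rfl
  · -- separation
    intro m n hmn
    by_contra hcon
    push Not at hcon
    apply hmn
    have : e.symm m = e.symm n := by
      apply WithConv.ext
      apply AlgHom.ext
      intro x
      have := hcon (ev x) ⟨x, rfl⟩
      rw [hev, hev] at this
      exact this
    exact e.symm.injective this
  · -- comultiplication
    rintro _ ⟨x, rfl⟩
    obtain ⟨n, a, b, hab⟩ := exists_fin_tmul (R := Zl ℓ) (CoalgebraStruct.comul (R := Zl ℓ) x)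
    refine ⟨n, fun k => ev (a k), fun k => ev (b k), fun k => ⟨a k, rfl⟩, fun k => ⟨b k, rfl⟩, ?_⟩
    intro s t
    have hst : e.symm (s + t) = e.symm s * e.symm t := by
      apply e.injective
      rw [hmul, Equiv.apply_symm_apply, Equiv.apply_symm_apply, Equiv.apply_symm_apply]
    show ev x (s + t) = ∑ k, ev (a k) s * ev (b k) t
    rw [hev, hst, AlgHom.convMul_apply, hab, map_sum]
    refine Finset.sum_congr rfl fun k _ => ?_
    rw [Algebra.TensorProduct.lift_tmul]
    rfl

end Fermat.Agent.S19.H435
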