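/-
A3 / WP-C pieces C, D (helper435): pullback of a Hopf lattice along an injective, additive,
Galois-compatible map (sub-objects and transport along isomorphisms).
-/
import Mathlib
import Fermat.Agent.S19.Defs
import Fermat.Agent.S19.H435.OfModel

set_option autoImplicit false
set_option linter.style.haveILetI false

noncomputable section

namespace Fermat.Agent.S19.H435

variable {ℓ : ℕ} {M : Type*} [AddCommGroup M] {act : Gal → M → M}
  {Λ : Subalgebra (Zl ℓ) (M → Qb)}

namespace IsHopfLattice

/-- **Pieces C, D (sub-objects, transport).** Restriction of a Hopf lattice along an injective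
additive map compatible with the Galois actions. -/
theorem pullback (hΛ : IsHopfLattice ℓ act Λ) {M' : Type*} [AddCommGroup M'] (ι : M' →+ M)
    (hι : Function.Injective ι) (act' : Gal → M' → M')
    (hcompat : ∀ σ m', ι (act' σ m') = act σ (ι m')) :
    IsHopfLattice ℓ act' (Λ.map (precompAlgHom ℓ ι)) := by
  refine ⟨?_, ?_, ?_, ?_⟩
  · have h1 : Subalgebra.toSubmodule (Λ.map (precompAlgHom ℓ ι)) =
        (Subalgebra.toSubmodule Λ).map (precompAlgHom ℓ ι).toLinearMap := by
      ext f
      simp [Subalgebra.mem_map]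
    rw [h1]
    exact hΛ.fg.map _
  · rintro _ ⟨f, hf, rfl⟩ σ m'
    show f (ι (act' σ m')) = σ (f (ι m'))
    rw [hcompat]
    exact hΛ.equivariant f hf σ (ι m')
  · intro m n hmn
    obtain ⟨f, hf, hfne⟩ := hΛ.separates (ι m) (ι n) (fun h => hmn (hι h))
    exact ⟨precompAlgHom ℓ ι f, ⟨f, hf, rfl⟩, hfne⟩
  · rintro _ ⟨f, hf, rfl⟩
    obtain ⟨n, a, b, ha, hb, hab⟩ := hΛ.comul_mem f hf
    refine ⟨n, fun k => precompAlgHom ℓ ι (a k), fun k => precompAlgHom ℓ ι (b k),
      fun k => ⟨a k, ha k, rfl⟩, fun k => ⟨b k, hb k, rfl⟩, ?_⟩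
    intro x y
    show f (ι (x + y)) = ∑ k, a k (ι x) * b k (ι y)
    rw [map_add, hab]

end IsHopfLattice

section HopfModel

open Fermat.Agent.S19 (HopfModel OrdStatement)

/-- Sub-objects (and transport): Hopf models pull back along injective compatible maps. -/
theorem hopfModel_of_injective (hord : OrdStatement) {ℓ : ℕ} [Fact ℓ.Prime] {M M' : Type}
    [AddCommGroup M] [AddCommGroup M'] {act : Gal → M → M} (h : HopfModel ℓ M act)
    (ι : M' →+ M) (hι : Function.Injective ι) (act' : Gal → M' → M')
    (hcompat : ∀ σ m', ι (act' σ m') = act σ (ι m')) : HopfModel ℓ M' act' := by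
  obtain ⟨Λ, hΛ⟩ := exists_isHopfLattice_of_hopfModel h
  exact (hΛ.pullback ι hι act' hcompat).hopfModel hord

/-- Quotients: Hopf models push forward along surjective compatible maps. -/
theorem hopfModel_of_surjective (hord : OrdStatement) {ℓ : ℕ} [Fact ℓ.Prime] {M M'' : Type}
    [AddCommGroup M] [AddCommGroup M''] {act : Gal → M → M} (h : HopfModel ℓ M act)
    (π : M →+ M'') (hπ : Function.Surjective π) (act'' : Gal → M'' → M'')
    (hcompat : ∀ σ m, act'' σ (π m) = π (act σ m)) : HopfModel ℓ M'' act'' := by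
  obtain ⟨Λ, hΛ⟩ := exists_isHopfLattice_of_hopfModel h
  haveI : Finite M := hΛ.finite
  exact (hΛ.quotient π hπ act'' hcompat).hopfModel hord

/-- Subquotients of Hopf models are Hopf models. -/
theorem hopfModel_of_subquotient (hord : OrdStatement) {ℓ : ℕ} [Fact ℓ.Prime] {M M' M'' : Type}
    [AddCommGroup M] [AddCommGroup M'] [AddCommGroup M''] {act : Gal → M → M}
    (h : HopfModel ℓ M act)
    (ι : M' →+ M) (hι : Function.Injective ι) (act' : Gal → M' → M')
    (hcompat' : ∀ σ m', ι (act' σ m') = act σ (ι m'))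
    (π : M' →+ M'') (hπ : Function.Surjective π) (act'' : Gal → M'' → M'')
    (hcompat'' : ∀ σ m, act'' σ (π m) = π (act' σ m)) : HopfModel ℓ M'' act'' :=
  hopfModel_of_surjective hord (hopfModel_of_injective hord h ι hι act' hcompat') π hπ act''
    hcompat''

end HopfModel

end Fermat.Agent.S19.H435
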