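/-
A3 / WP-C piece E (helper435): products and finite powers of Hopf lattices / Hopf models.
-/
import Mathlib
import Fermat.Agent.S19.Defs
import Fermat.Agent.S19.H435.Sub

set_option autoImplicit false
set_option linter.style.haveILetI false

noncomputable section

namespace Fermat.Agent.S19.H435

variable {ℓ : ℕ}

/-- The subalgebra of equivariant functions. -/
def equivariantSubalgebra (ℓ : ℕ) {M : Type*} (act : Gal → M → M) :
    Subalgebra (Zl ℓ) (M → Qb) where
  carrier := {f | IsEquivariantFun act f}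
  mul_mem' := by
    intro f g hf hg σ m
    rw [Pi.mul_apply, Pi.mul_apply, hf σ m, hg σ m, map_mul]
  add_mem' := by
    intro f g hf hg σ m
    rw [Pi.add_apply, Pi.add_apply, hf σ m, hg σ m, map_add]
  algebraMap_mem' := by
    intro r σ m
    show algebraMap ℚ Qb (r : ℚ) = σ (algebraMap ℚ Qb (r : ℚ))
    exact (σ.commutes (r : ℚ)).symm

/-- Decompositions of the comultiplication indexed by an arbitrary fintype. -/
def HasComul {M : Type*} [AddCommGroup M] (Λ : Subalgebra (Zl ℓ) (M → Qb)) (f : M → Qb) : Prop :=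
  ∃ (n : ℕ) (a b : Fin n → M → Qb), (∀ k, a k ∈ Λ) ∧ (∀ k, b k ∈ Λ) ∧
    ∀ x y : M, f (x + y) = ∑ k, a k x * b k y

theorem hasComul_of_fintype {M : Type*} [AddCommGroup M] {Λ : Subalgebra (Zl ℓ) (M → Qb)}
    {f : M → Qb} {ι : Type*} [Fintype ι] (a b : ι → M → Qb) (ha : ∀ k, a k ∈ Λ)
    (hb : ∀ k, b k ∈ Λ) (h : ∀ x y : M, f (x + y) = ∑ k, a k x * b k y) : HasComul Λ f := by
  refine ⟨Fintype.card ι, fun k => a ((Fintype.equivFin ι).symm k),
    fun k => b ((Fintype.equivFin ι).symm k), fun k => ha _, fun k => hb _, ?_⟩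
  intro x y
  rw [h]
  exact (Equiv.sum_comp (Fintype.equivFin ι).symm (fun k => a k x * b k y)).symm

/-- The functions whose comultiplication decomposes in `Λ` form a subalgebra. -/
def comulSubalgebra {M : Type*} [AddCommGroup M] (Λ : Subalgebra (Zl ℓ) (M → Qb)) :
    Subalgebra (Zl ℓ) (M → Qb) where
  carrier := {f | HasComul Λ f}
  mul_mem' := by
    rintro f g ⟨n, a, b, ha, hb, hab⟩ ⟨m, a', b', ha', hb', hab'⟩
    refine hasComul_of_fintype (ι := Fin n × Fin m) (fun p => a p.1 * a' p.2)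
      (fun p => b p.1 * b' p.2) (fun p => Subalgebra.mul_mem _ (ha _) (ha' _))
      (fun p => Subalgebra.mul_mem _ (hb _) (hb' _)) ?_
    intro x y
    rw [Pi.mul_apply, hab, hab', Fintype.sum_prod_type, Finset.sum_mul_sum]
    refine Finset.sum_congr rfl fun i _ => Finset.sum_congr rfl fun j _ => ?_
    simp only [Pi.mul_apply]
    ring
  add_mem' := by
    rintro f g ⟨n, a, b, ha, hb, hab⟩ ⟨m, a', b', ha', hb', hab'⟩
    refine hasComul_of_fintype (ι := Fin n ⊕ Fin m) (Sum.elim a a') (Sum.elim b b')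
      (fun p => by cases p <;> simp [ha, ha']) (fun p => by cases p <;> simp [hb, hb']) ?_
    intro x y
    rw [Pi.add_apply, hab, hab', Fintype.sum_sum_type]
    simp
  algebraMap_mem' := by
    intro r
    refine ⟨1, fun _ => algebraMap (Zl ℓ) (M → Qb) r, fun _ => 1,
      fun _ => Subalgebra.algebraMap_mem _ _, fun _ => Subalgebra.one_mem _, ?_⟩
    intro x y
    simp

variable {M₁ M₂ : Type*} [AddCommGroup M₁] [AddCommGroup M₂]
  {act₁ : Gal → M₁ → M₁} {act₂ : Gal → M₂ → M₂}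
  {Λ₁ : Subalgebra (Zl ℓ) (M₁ → Qb)} {Λ₂ : Subalgebra (Zl ℓ) (M₂ → Qb)}

/-- The product lattice on `M₁ × M₂`. -/
def prodLattice (Λ₁ : Subalgebra (Zl ℓ) (M₁ → Qb)) (Λ₂ : Subalgebra (Zl ℓ) (M₂ → Qb)) :
    Subalgebra (Zl ℓ) (M₁ × M₂ → Qb) :=
  Λ₁.map (precompAlgHom ℓ Prod.fst) ⊔ Λ₂.map (precompAlgHom ℓ Prod.snd)

/-- **Piece E (products).** -/
theorem IsHopfLattice.prod (h₁ : IsHopfLattice ℓ act₁ Λ₁) (h₂ : IsHopfLattice ℓ act₂ Λ₂) :
    IsHopfLattice ℓ (fun σ (p : M₁ × M₂) => (act₁ σ p.1, act₂ σ p.2)) (prodLattice Λ₁ Λ₂) := by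
  have hle₁ : Λ₁.map (precompAlgHom ℓ (Prod.fst : M₁ × M₂ → M₁)) ≤ prodLattice Λ₁ Λ₂ :=
    le_sup_left
  have hle₂ : Λ₂.map (precompAlgHom ℓ (Prod.snd : M₁ × M₂ → M₂)) ≤ prodLattice Λ₁ Λ₂ :=
    le_sup_right
  refine ⟨?_, ?_, ?_, ?_⟩
  · unfold prodLattice
    rw [← Subalgebra.mul_toSubmodule]
    refine Submodule.FG.mul ?_ ?_
    · have h1 : Subalgebra.toSubmodule (Λ₁.map (precompAlgHom ℓ (Prod.fst : M₁ × M₂ → M₁))) =
          (Subalgebra.toSubmodule Λ₁).map (precompAlgHom ℓ Prod.fst).toLinearMap := by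
        ext f
        simp [Subalgebra.mem_map]
      rw [h1]
      exact h₁.fg.map _
    · have h1 : Subalgebra.toSubmodule (Λ₂.map (precompAlgHom ℓ (Prod.snd : M₁ × M₂ → M₂))) =
          (Subalgebra.toSubmodule Λ₂).map (precompAlgHom ℓ Prod.snd).toLinearMap := by
        ext f
        simp [Subalgebra.mem_map]
      rw [h1]
      exact h₂.fg.map _
  · have : prodLattice Λ₁ Λ₂ ≤
        equivariantSubalgebra ℓ (fun σ (p : M₁ × M₂) => (act₁ σ p.1, act₂ σ p.2)) := by
      refine sup_le ?_ ?_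
      · rintro _ ⟨f, hf, rfl⟩ σ p
        exact h₁.equivariant f hf σ p.1
      · rintro _ ⟨f, hf, rfl⟩ σ p
        exact h₂.equivariant f hf σ p.2
    exact fun f hf => this hf
  · rintro ⟨m₁, m₂⟩ ⟨n₁, n₂⟩ hne
    by_cases h : m₁ = n₁
    · have h' : m₂ ≠ n₂ := fun h' => hne (by rw [h, h'])
      obtain ⟨f, hf, hfne⟩ := h₂.separates m₂ n₂ h'
      exact ⟨precompAlgHom ℓ Prod.snd f, hle₂ ⟨f, hf, rfl⟩, hfne⟩
    · obtain ⟨f, hf, hfne⟩ := h₁.separates m₁ n₁ h
      exact ⟨precompAlgHom ℓ Prod.fst f, hle₁ ⟨f, hf, rfl⟩, hfne⟩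
  · have : prodLattice Λ₁ Λ₂ ≤ comulSubalgebra (prodLattice Λ₁ Λ₂) := by
      refine sup_le ?_ ?_
      · rintro _ ⟨f, hf, rfl⟩
        obtain ⟨n, a, b, ha, hb, hab⟩ := h₁.comul_mem f hf
        refine ⟨n, fun k => precompAlgHom ℓ Prod.fst (a k),
          fun k => precompAlgHom ℓ Prod.fst (b k), fun k => hle₁ ⟨a k, ha k, rfl⟩,
          fun k => hle₁ ⟨b k, hb k, rfl⟩, ?_⟩
        intro x y
        exact hab x.1 y.1
      · rintro _ ⟨f, hf, rfl⟩
        obtain ⟨n, a, b, ha, hb, hab⟩ := h₂.comul_mem f hf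
        refine ⟨n, fun k => precompAlgHom ℓ Prod.snd (a k),
          fun k => precompAlgHom ℓ Prod.snd (b k), fun k => hle₂ ⟨a k, ha k, rfl⟩,
          fun k => hle₂ ⟨b k, hb k, rfl⟩, ?_⟩
        intro x y
        exact hab x.2 y.2
    exact fun f hf => this hf

/-- The trivial lattice on a subsingleton. -/
theorem IsHopfLattice.of_subsingleton {M : Type*} [AddCommGroup M] [Subsingleton M]
    (act : Gal → M → M) : IsHopfLattice ℓ act (⊥ : Subalgebra (Zl ℓ) (M → Qb)) := by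
  refine ⟨?_, ?_, ?_, ?_⟩
  · rw [Algebra.toSubmodule_bot]
    rw [Submodule.one_eq_span]
    exact Submodule.fg_span_singleton _
  · have : (⊥ : Subalgebra (Zl ℓ) (M → Qb)) ≤ equivariantSubalgebra ℓ act := bot_le
    exact fun f hf => this hf
  · intro m n hmn
    exact absurd (Subsingleton.elim m n) hmn
  · have : (⊥ : Subalgebra (Zl ℓ) (M → Qb)) ≤ comulSubalgebra ⊥ := bot_le
    exact fun f hf => this hf

section HopfModel

open Fermat.Agent.S19 (HopfModel OrdStatement)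

/-- Products of Hopf models are Hopf models. -/
theorem hopfModel_prod (hord : OrdStatement) [Fact ℓ.Prime] {M₁ M₂ : Type}
    [AddCommGroup M₁] [AddCommGroup M₂] {act₁ : Gal → M₁ → M₁} {act₂ : Gal → M₂ → M₂}
    (h₁ : HopfModel ℓ M₁ act₁) (h₂ : HopfModel ℓ M₂ act₂) :
    HopfModel ℓ (M₁ × M₂) (fun σ p => (act₁ σ p.1, act₂ σ p.2)) := by
  obtain ⟨Λ₁, hΛ₁⟩ := exists_isHopfLattice_of_hopfModel h₁
  obtain ⟨Λ₂, hΛ₂⟩ := exists_isHopfLattice_of_hopfModel h₂
  exact (hΛ₁.prod hΛ₂).hopfModel hord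

/-- The trivial group is a Hopf model. -/
theorem hopfModel_of_subsingleton (hord : OrdStatement) [Fact ℓ.Prime] {M : Type}
    [AddCommGroup M] [Subsingleton M] (act : Gal → M → M) : HopfModel ℓ M act :=
  (IsHopfLattice.of_subsingleton (ℓ := ℓ) act).hopfModel hord

/-- Finite powers of Hopf models are Hopf models. -/
theorem hopfModel_pi (hord : OrdStatement) [Fact ℓ.Prime] {M : Type} [AddCommGroup M]
    {act : Gal → M → M} (h : HopfModel ℓ M act) (r : ℕ) :
    HopfModel ℓ (Fin r → M) (fun σ v i => act σ (v i)) := by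
  induction r with
  | zero => exact hopfModel_of_subsingleton hord _
  | succ r ih =>
    have hp := hopfModel_prod hord h ih
    let ι : (Fin (r + 1) → M) →+ M × (Fin r → M) :=
      { toFun := fun v => (v 0, fun i => v i.succ)
        map_zero' := rfl
        map_add' := fun _ _ => rfl }
    refine hopfModel_of_injective hord hp ι ?_ _ (fun σ v => rfl)
    intro v w hvw
    funext i
    have h1 : v 0 = w 0 := congrArg Prod.fst hvw
    have h2 : (fun i : Fin r => v i.succ) = fun i => w i.succ := congrArg Prod.snd hvw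
    refine Fin.cases h1 (fun j => congrFun h2 j) i

end HopfModel

end Fermat.Agent.S19.H435
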