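/-
A3 / WP-C piece G (helper435): glue of the closure algebra to `GaloisRepAdic.IsFlatAt`.

`IsFlatAt` is, level by level, a `HopfModel`; so a representation all of whose finite levels are
Galois-equivariant subquotients of modules having Hopf models is flat.
-/
import Mathlib
import Fermat.Prelude.Def_GaloisRep_Flat
import Fermat.Agent.S19.Defs
import Fermat.Agent.S19.H435.Prod

set_option autoImplicit false
set_option linter.style.haveILetI false

noncomputable section

namespace Fermat.Agent.S19.H435

open Fermat.Agent.S19 (HopfModel OrdStatement)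

variable {A : Type} [CommRing A] [IsLocalRing A]

/-- `IsFlatAt` in terms of `HopfModel`. -/
theorem isFlatAt_iff_hopfModel (ρ : GaloisRepAdic A) (p : ℕ) :
    ρ.IsFlatAt p ↔ Finite (IsLocalRing.ResidueField A) ∧ ∀ I : Ideal A, Finite (A ⧸ I) →
      HopfModel p (ρ.V ⧸ (I • (⊤ : Submodule A ρ.V))) (fun σ v => ρ.levelAction I σ v) :=
  Iff.rfl

/-- **Piece G.** If every finite level of `ρ` is a Galois-equivariant subquotient of a module
with a Hopf model, then `ρ` is flat at `p`. -/
theorem isFlatAt_of_subquotients (hord : OrdStatement) {p : ℕ} [Fact p.Prime]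
    (ρ : GaloisRepAdic A) (hres : Finite (IsLocalRing.ResidueField A))
    (h : ∀ I : Ideal A, Finite (A ⧸ I) →
      ∃ (M : Type) (_ : AddCommGroup M) (act : Gal → M → M), HopfModel p M act ∧
      ∃ (M' : Type) (_ : AddCommGroup M') (act' : Gal → M' → M') (ι : M' →+ M)
        (π : M' →+ (ρ.V ⧸ (I • (⊤ : Submodule A ρ.V)))),
        Function.Injective ι ∧ (∀ σ m', ι (act' σ m') = act σ (ι m')) ∧
        Function.Surjective π ∧ ∀ σ m', ρ.levelAction I σ (π m') = π (act' σ m')) :
    ρ.IsFlatAt p := by
  rw [isFlatAt_iff_hopfModel]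
  refine ⟨hres, fun I hI => ?_⟩
  obtain ⟨M, _, act, hM, M', _, act', ι, π, hι, hcι, hπ, hcπ⟩ := h I hI
  exact hopfModel_of_subquotient hord hM ι hι act' hcι π hπ _ hcπ

/-- Variant of piece G with finite powers built in: every finite level of `ρ` is a
subquotient of a finite power of a module with a Hopf model. -/
theorem isFlatAt_of_subquotients_pi (hord : OrdStatement) {p : ℕ} [Fact p.Prime]
    (ρ : GaloisRepAdic A) (hres : Finite (IsLocalRing.ResidueField A))
    (h : ∀ I : Ideal A, Finite (A ⧸ I) →
      ∃ (M : Type) (_ : AddCommGroup M) (act : Gal → M → M) (r : ℕ), HopfModel p M act ∧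
      ∃ (M' : Type) (_ : AddCommGroup M') (act' : Gal → M' → M') (ι : M' →+ (Fin r → M))
        (π : M' →+ (ρ.V ⧸ (I • (⊤ : Submodule A ρ.V)))),
        Function.Injective ι ∧ (∀ σ m' i, ι (act' σ m') i = act σ (ι m' i)) ∧
        Function.Surjective π ∧ ∀ σ m', ρ.levelAction I σ (π m') = π (act' σ m')) :
    ρ.IsFlatAt p := by
  refine isFlatAt_of_subquotients hord ρ hres fun I hI => ?_
  obtain ⟨M, _, act, r, hM, M', _, act', ι, π, hι, hcι, hπ, hcπ⟩ := h I hI
  exact ⟨Fin r → M, inferInstance, fun σ v i => act σ (v i), hopfModel_pi hord hM r, M',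
    inferInstance, act', ι, π, hι, fun σ m' => funext fun i => hcι σ m' i, hπ, hcπ⟩

end Fermat.Agent.S19.H435
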